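import Mathlib.Analysis.SpecificLimits.Basic
import Mathlib.Tactic

/-!
# Terras's theorem on the Collatz map

`T n = n / 2` or `(3 n + 1) / 2`. The parities of the first `k` iterates of `n` depend exactly on
`n` modulo `2 ^ k`, and `3 ^ s < 2 ^ k` for most residues, `s` being the number of odd steps.
-/

set_option autoImplicit false

noncomputable section

open Finset Filter Topology
open scoped Classical

namespace FA.Terras

/-- The shortened Collatz map. -/
def step (n : ℕ) : ℕ := if n % 2 = 0 then n / 2 else (3 * n + 1) / 2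

/-- The number of odd terms among the first `k` iterates. -/
def ones (k n : ℕ) : ℕ := #((range k).filter fun i => step^[i] n % 2 = 1)

theorem ones_succ (k n : ℕ) :
    ones (k + 1) n = ones k n + step^[k] n % 2 := by
  rw [ones, ones, range_add_one, filter_insert]
  rcases Nat.mod_two_eq_zero_or_one (step^[k] n) with h | h
  · rw [if_neg (by omega), h, add_zero]
  · rw [if_pos h, card_insert_of_notMem (by simp), h]

/-- Terras's lemma: the iterates on a residue class modulo `2 ^ k`. -/
theorem iterate_add (k : ℕ) : ∀ m r : ℕ,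
    step^[k] (2 ^ k * m + r) = 3 ^ ones k r * m + step^[k] r ∧
      (∀ i < k, step^[i] (2 ^ k * m + r) % 2 = step^[i] r % 2) := by
  induction k with
  | zero => intro m r; simp [ones]
  | succ k ih =>
    intro m r
    obtain ⟨h1, h2⟩ := ih (2 * m) r
    rw [← mul_assoc, ← pow_succ] at h1 h2
    have hp : step^[k] (2 ^ (k + 1) * m + r) % 2 = step^[k] r % 2 := by
      rw [h1, mul_left_comm, Nat.mul_add_mod]
    refine ⟨?_, fun i hi => ?_⟩
    · rw [Function.iterate_succ_apply', Function.iterate_succ_apply', ones_succ, h1]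
      set x := step^[k] r
      set y := 3 ^ ones k r with hy
      rw [mul_left_comm, pow_add, ← hy, step, step, Nat.mul_add_mod]
      rcases Nat.mod_two_eq_zero_or_one x with h | h
      · rw [if_pos h, if_pos h, h, pow_zero, mul_one]
        omega
      · rw [if_neg (by omega), if_neg (by omega), h, pow_one, mul_right_comm y 3 m]
        omega
    · rcases Nat.lt_succ_iff_lt_or_eq.1 hi with h | rfl
      · exact h2 i h
      · exact hp

theorem ones_add (k m r : ℕ) : ones k (2 ^ k * m + r) = ones k r := by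
  unfold ones
  refine congrArg Finset.card (Finset.filter_congr fun i hi => ?_)
  rw [(iterate_add k m r).2 i (mem_range.1 hi)]

/-- **The parities of the first `k` iterates are exactly the class modulo `2 ^ k`.** -/
theorem parity_iff (k a b : ℕ) :
    (∀ i < k, step^[i] a % 2 = step^[i] b % 2) ↔ a % 2 ^ k = b % 2 ^ k := by
  constructor
  · induction k generalizing a b with
    | zero => intro _; simp [Nat.mod_one]
    | succ k ih =>
      intro h
      have hk := ih a b fun i hi => h i (by omega)
      have ha := Nat.div_add_mod a (2 ^ k)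
      have hb := Nat.div_add_mod b (2 ^ k)
      have hx := h k k.lt_succ_self
      have e : ∀ c r : ℕ, step^[k] (2 ^ k * c + r) % 2 = (c + step^[k] r) % 2 := fun c r => by
        rw [(iterate_add k c r).1, Nat.add_mod, Nat.mul_mod, Nat.pow_mod]
        simp [Nat.add_mod]
      rw [← ha, ← hb, e, e, hk] at hx
      rw [pow_succ, Nat.mod_mul, Nat.mod_mul, hk]
      congr 2
      omega
  · intro h i hi
    rw [← Nat.div_add_mod a (2 ^ k), ← Nat.div_add_mod b (2 ^ k),
      (iterate_add k _ _).2 i hi, (iterate_add k _ _).2 i hi, h]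

theorem sum_two_pow_ones : ∀ k : ℕ, ∑ r ∈ range (2 ^ k), 2 ^ ones k r = 3 ^ k := by
  intro k
  induction k with
  | zero => simp [ones]
  | succ k ih =>
    rw [pow_succ 2 k, mul_two, sum_range_add, ← sum_add_distrib, pow_succ 3 k, ← ih, sum_mul]
    refine sum_congr rfl fun r _ => ?_
    have h1 := (iterate_add k 1 r).1
    have h2 := ones_add k 1 r
    rw [mul_one] at h1 h2
    rw [ones_succ, ones_succ, h2, h1, mul_one, pow_add, pow_add]
    have hodd : 3 ^ ones k r % 2 = 1 := by simp [Nat.pow_mod]
    rcases Nat.mod_two_eq_zero_or_one (step^[k] r) with h | h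
    · rw [h, show (3 ^ ones k r + step^[k] r) % 2 = 1 by omega]; ring
    · rw [h, show (3 ^ ones k r + step^[k] r) % 2 = 0 by omega]; ring

theorem card_heavy_le (j : ℕ) :
    #((range (2 ^ (8 * j))).filter fun r => 5 * j ≤ ones (8 * j) r) * 2 ^ (5 * j) ≤
      3 ^ (8 * j) := by
  rw [← sum_two_pow_ones, ← smul_eq_mul, ← sum_const]
  exact (sum_le_sum fun r hr => Nat.pow_le_pow_right (by norm_num) (mem_filter.1 hr).2).trans
    (sum_le_sum_of_subset (filter_subset _ _))

theorem pow_lt_of_light {j s : ℕ} (h : s < 5 * j) : 3 ^ s < 2 ^ (8 * j) :=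
  calc 3 ^ s < 3 ^ (5 * j) := Nat.pow_lt_pow_right (by norm_num) h
    _ = 243 ^ j := by rw [pow_mul]; norm_num
    _ ≤ 256 ^ j := Nat.pow_le_pow_left (by norm_num) j
    _ = 2 ^ (8 * j) := by rw [pow_mul]; norm_num

/-- The integers which never fall below themselves are rare at every scale `k = 8 j`. -/
theorem exists_count_bound (j : ℕ) : ∃ Q : ℕ, ∀ N : ℕ,
    #((range N).filter fun n => ∀ k, n ≤ step^[k] n) * 2 ^ (8 * j) ≤
      #((range (2 ^ (8 * j))).filter fun r => 5 * j ≤ ones (8 * j) r) * N + Q := by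
  set K := 2 ^ (8 * j) with hK
  have hK0 : 0 < K := by positivity
  set H := (range K).filter fun r => 5 * j ≤ ones (8 * j) r with hH
  set B := (range K).sup fun r => step^[8 * j] r with hB
  refine ⟨(K * (B + 1) + #H) * K, fun N => ?_⟩
  have hsub : ((range N).filter fun n => ∀ k, n ≤ step^[k] n) ⊆
      range (K * (B + 1)) ∪ (H ×ˢ range (N / K + 1)).image fun p => K * p.2 + p.1 := by
    intro n hn
    obtain ⟨hnN, hbad⟩ := mem_filter.1 hn
    rw [mem_range] at hnN
    rw [mem_union, mem_range, mem_image]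
    by_cases hsmall : n < K * (B + 1)
    · exact Or.inl hsmall
    refine Or.inr ⟨(n % K, n / K), mem_product.2 ⟨mem_filter.2
      ⟨mem_range.2 (Nat.mod_lt _ hK0), ?_⟩,
      mem_range.2 (Nat.lt_succ_of_le (Nat.div_le_div_right hnN.le))⟩, Nat.div_add_mod n K⟩
    by_contra hlight
    push Not at hlight hsmall
    have h1 := (iterate_add (8 * j) (n / K) (n % K)).1
    rw [← hK, Nat.div_add_mod] at h1
    have h2 : step^[8 * j] (n % K) ≤ B :=
      le_sup (f := fun r => step^[8 * j] r) (mem_range.2 (Nat.mod_lt _ hK0))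
    have h3 : B + 1 ≤ n / K := (Nat.le_div_iff_mul_le hK0).2 (by linarith)
    have h4 : (3 ^ ones (8 * j) (n % K) + 1) * (n / K) ≤ K * (n / K) :=
      Nat.mul_le_mul_right _ (pow_lt_of_light hlight)
    rw [add_mul, one_mul] at h4
    have h5 := hbad (8 * j)
    have h6 := Nat.div_add_mod n K
    omega
  have hcard : #((range N).filter fun n => ∀ k, n ≤ step^[k] n) ≤
      K * (B + 1) + #H * (N / K + 1) :=
    (card_le_card hsub).trans ((card_union_le _ _).trans (add_le_add (by rw [card_range])
      (card_image_le.trans (by rw [card_product, card_range]))))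
  calc _ ≤ (K * (B + 1) + #H * (N / K + 1)) * K := Nat.mul_le_mul_right _ hcard
    _ = #H * (N / K * K) + (K * (B + 1) + #H) * K := by ring
    _ ≤ #H * N + (K * (B + 1) + #H) * K := by
        gcongr
        exact Nat.div_mul_le_self _ _

/-- **Terras's theorem.** -/
theorem density_stopping :
    Tendsto (fun N : ℕ => (#((range N).filter fun n => ∀ k, n ≤ step^[k] n) : ℝ) / N) atTop
      (𝓝 0) := by
  rw [Metric.tendsto_atTop]
  intro ε hε
  obtain ⟨j, hj⟩ := exists_pow_lt_of_lt_one (half_pos hε) (show (6561 / 8192 : ℝ) < 1 by norm_num)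
  obtain ⟨Q, hQ⟩ := exists_count_bound j
  obtain ⟨N₀, hN₀⟩ := exists_nat_gt ((Q : ℝ) / (ε / 2))
  refine ⟨N₀ + 1, fun N hN => ?_⟩
  have hN0 : (0 : ℝ) < N := by exact_mod_cast (show 0 < N by omega)
  rw [Real.dist_eq, sub_zero, abs_of_nonneg (by positivity), div_lt_iff₀ hN0]
  set c := #((range N).filter fun n => ∀ k, n ≤ step^[k] n) with hc
  set H := #((range (2 ^ (8 * j))).filter fun r => 5 * j ≤ ones (8 * j) r) with hH
  have h1 : (c : ℝ) * 2 ^ (8 * j) ≤ H * N + Q := by exact_mod_cast hQ N
  have h2 : (H : ℝ) * 2 ^ (5 * j) ≤ 3 ^ (8 * j) := by exact_mod_cast card_heavy_le j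
  have h3 : (H : ℝ) / 2 ^ (8 * j) < ε / 2 := by
    refine lt_of_le_of_lt ?_ hj
    rw [div_le_iff₀ (by positivity)]
    calc (H : ℝ) ≤ 3 ^ (8 * j) / 2 ^ (5 * j) := (le_div_iff₀ (by positivity)).2 h2
      _ = (6561 / 8192) ^ j * 2 ^ (8 * j) := by
        rw [pow_mul, pow_mul, pow_mul, ← div_pow, ← mul_pow]
        norm_num
  have h4 : (Q : ℝ) < ε / 2 * N := by
    rw [div_lt_iff₀ (half_pos hε)] at hN₀
    have : ((N₀ : ℝ)) ≤ N := by exact_mod_cast (by omega : N₀ ≤ N)
    nlinarith
  have hp : (1 : ℝ) ≤ 2 ^ (8 * j) := one_le_pow₀ (by norm_num)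
  rw [div_lt_iff₀ (by positivity)] at h3
  by_contra hlt
  push Not at hlt
  nlinarith [mul_le_mul_of_nonneg_right hlt (by positivity : (0 : ℝ) ≤ 2 ^ (8 * j)),
    mul_lt_mul_of_pos_right h3 hN0, mul_le_mul_of_nonneg_left hp
      (mul_nonneg (half_pos hε).le hN0.le)]

/-- The stopping time is finite with density one. -/
theorem density_finite_stopping :
    Tendsto (fun N : ℕ => (#((range N).filter fun n => ∃ k, step^[k] n < n) : ℝ) / N) atTop
      (𝓝 1) := by
  have h := (tendsto_const_nhds (x := (1 : ℝ))).sub density_stopping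
  rw [sub_zero] at h
  refine h.congr' ?_
  filter_upwards [eventually_ge_atTop 1] with N hN
  have := card_filter_add_card_filter_not (s := range N)
    (fun n => ∀ k, n ≤ step^[k] n)
  rw [card_range] at this
  have e : ((range N).filter fun n => ¬ ∀ k, n ≤ step^[k] n) =
      (range N).filter fun n => ∃ k, step^[k] n < n :=
    filter_congr fun n _ => by simp only [not_forall, not_le]
  rw [e] at this
  have hN0 : (N : ℝ) ≠ 0 := by positivity
  rw [eq_div_iff hN0, sub_mul, one_mul, div_mul_cancel₀ _ hN0, sub_eq_iff_eq_add']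
  exact_mod_cast this.symm

end FA.Terras

end
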